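/-
S44, block V (owner helper104), abstract part (Mathlib only): definitions.

`Quad ρ ω t` : every `ρ g` satisfies `X ^ 2 - t g X + ω g` (shape of the Eichler-Shimura relation);
`Irr ρ`      : no nontrivial invariant subspace.
-/
import Mathlib

set_option autoImplicit false

namespace Fermat.Agent.S44.V.Abs

variable {k : Type*} [Field k] {G : Type*} [Group G] {E : Type*} [AddCommGroup E] [Module k E]

/-- Every `ρ g` satisfies the quadratic relation `X ^ 2 - t g X + ω g = 0`. -/
def Quad (ρ : G →* Module.End k E) (ω : G →* kˣ) (t : G → k) : Prop :=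
  ∀ g, ρ g * ρ g - t g • ρ g + (ω g : k) • (1 : Module.End k E) = 0

/-- No nontrivial invariant subspace. -/
def Irr (ρ : G →* Module.End k E) : Prop :=
  ∀ U : Submodule k E, (∀ g, ∀ x ∈ U, ρ g x ∈ U) → U = ⊥ ∨ U = ⊤

theorem Quad.apply {ρ : G →* Module.End k E} {ω : G →* kˣ} {t : G → k} (h : Quad ρ ω t) (g : G)
    (x : E) : ρ g (ρ g x) - t g • ρ g x + (ω g : k) • x = 0 := by
  have := congrArg (fun f : Module.End k E => f x) (h g)
  simpa using this

theorem quad_of_apply {ρ : G →* Module.End k E} {ω : G →* kˣ} {t : G → k}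
    (h : ∀ g x, ρ g (ρ g x) - t g • ρ g x + (ω g : k) • x = 0) : Quad ρ ω t := by
  intro g
  ext x
  simpa using h g x

end Fermat.Agent.S44.V.Abs
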