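/-
S44, block V, abstract part, node A4 (task 2301, helper181): the adapted basis
(triangular shape of inertia, diagonal character `ω`).
-/
import Fermat.Agent.S44.V.Abs.Defs

set_option autoImplicit false

namespace Fermat.Agent.S44.V.Abs

variable {k : Type*} [Field k] {G : Type*} [Group G] {E : Type*} [AddCommGroup E] [Module k E]

/-- local copy of A1 `exists_nonscalar`. -/
theorem Basis.exists_nonscalar' (hE : Module.finrank k E = 2) {ρ : G →* Module.End k E}
    (hirr : Irr ρ) : ∃ h : G, ∀ a : k, ρ h ≠ a • (1 : Module.End k E) := by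
  by_contra hcon
  push Not at hcon
  have : Module.Finite k E := Module.finite_of_finrank_pos (by omega)
  have : Nontrivial E := Module.nontrivial_of_finrank_pos (R := k) (by omega)
  obtain ⟨x, hx⟩ := exists_ne (0 : E)
  rcases hirr (Submodule.span k {x}) (fun g y hy => by
    obtain ⟨a, ha⟩ := hcon g
    rw [ha]
    simpa using Submodule.smul_mem _ a hy) with h | h
  · rw [Submodule.span_singleton_eq_bot] at h
    exact hx h
  · have h1 := finrank_span_singleton (K := k) hx
    rw [h, finrank_top, hE] at h1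
    omega

/-- local copy of A1 `omega_eq_one_of_eq_one`. -/
theorem Basis.omega_eq_one_of_eq_one' {ρ : G →* Module.End k E} {ω : G →* kˣ} {t : G → k}
    (hq : Quad ρ ω t) {h : G} (hh : ∀ a : k, ρ h ≠ a • (1 : Module.End k E)) {σ : G}
    (hσ : ρ σ = 1) : ω σ = 1 := by
  have h1 := hq h
  have h2 := hq (h * σ)
  rw [map_mul, hσ, mul_one, map_mul, Units.val_mul] at h2
  have h3 : (t (h * σ) - t h) • ρ h =
      ((ω h : k) * ((ω σ : k) - 1)) • (1 : Module.End k E) := by
    have h4 := sub_eq_zero.mpr (h2.trans h1.symm)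
    have h5 : (t (h * σ) - t h) • ρ h - ((ω h : k) * ((ω σ : k) - 1)) • (1 : Module.End k E) =
        -((ρ h * ρ h - t (h * σ) • ρ h + ((ω h : k) * (ω σ : k)) • (1 : Module.End k E)) -
          (ρ h * ρ h - t h • ρ h + (ω h : k) • (1 : Module.End k E))) := by
      simp only [sub_smul, mul_sub, mul_one]
      abel
    rw [h4, neg_zero] at h5
    exact sub_eq_zero.mp h5
  by_cases ht : t (h * σ) - t h = 0
  · rw [ht, zero_smul] at h3
    have h10 : (1 : Module.End k E) ≠ 0 := by
      intro h0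
      apply hh 0
      rw [zero_smul]
      have : ρ h = ρ h * 1 := (mul_one _).symm
      rw [this, h0, mul_zero]
    have h6 := (smul_eq_zero.mp h3.symm).resolve_right h10
    have h7 := (mul_eq_zero.mp h6).resolve_left (ω h).ne_zero
    exact Units.ext (sub_eq_zero.mp h7)
  · exfalso
    apply hh ((t (h * σ) - t h)⁻¹ * ((ω h : k) * ((ω σ : k) - 1)))
    rw [mul_smul, ← h3, smul_smul, inv_mul_cancel₀ ht, one_smul]

theorem exists_adapted_basis (hE : Module.finrank k E = 2) {ρ : G →* Module.End k E}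
    {ω : G →* kˣ} {t : G → k} (hq : Quad ρ ω t) (hirr : Irr ρ) (V₁ : Submodule k E) (hV₁ : V₁ ≠ ⊤)
    (I : Set G) (hI : ∀ σ ∈ I, ∀ x, ρ σ x - x ∈ V₁) :
    ∃ x₀ x₁ : E, (∀ a b : k, a • x₀ + b • x₁ = 0 → a = 0 ∧ b = 0) ∧
      (∀ σ ∈ I, ρ σ x₀ = (ω σ : k) • x₀) ∧ ∀ σ ∈ I, ∃ m : k, ρ σ x₁ = x₁ + m • x₀ := by
  have hfin : Module.Finite k E := Module.finite_of_finrank_pos (by omega)
  have hnt : Nontrivial E := Module.nontrivial_of_finrank_pos (R := k) (by omega)
  obtain ⟨h, hh⟩ := Basis.exists_nonscalar' hE hirr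
  -- the vector `x₀`
  obtain ⟨x₀, hx₀, hle⟩ : ∃ x₀ : E, x₀ ≠ 0 ∧ V₁ ≤ Submodule.span k {x₀} := by
    by_cases hb : V₁ = ⊥
    · obtain ⟨x, hx⟩ := exists_ne (0 : E)
      exact ⟨x, hx, by rw [hb]; exact bot_le⟩
    · obtain ⟨x, hxV, hx⟩ := Submodule.exists_mem_ne_zero_of_ne_bot hb
      refine ⟨x, hx, ?_⟩
      have hlt : Module.finrank k V₁ < 2 := hE ▸ Submodule.finrank_lt hV₁
      have hsp : Submodule.span k {x} ≤ V₁ := (Submodule.span_singleton_le_iff_mem _ _).mpr hxV
      have h1 := finrank_span_singleton (K := k) hx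
      exact (Submodule.eq_of_le_of_finrank_le hsp (by omega)).ge
  have hsp1 := finrank_span_singleton (K := k) hx₀
  -- the vector `x₁`
  obtain ⟨x₁, hx₁⟩ : ∃ x₁ : E, x₁ ∉ Submodule.span k {x₀} := by
    by_contra hcon
    push Not at hcon
    have : Submodule.span k {x₀} = ⊤ := eq_top_iff.mpr fun x _ => hcon x
    rw [this, finrank_top, hE] at hsp1
    omega
  have hind : ∀ a b : k, a • x₀ + b • x₁ = 0 → a = 0 ∧ b = 0 := by
    intro a b hab
    have hb : b = 0 := by
      by_contra hb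
      apply hx₁
      have : x₁ = (-(b⁻¹ * a)) • x₀ := by
        have h1 : b • x₁ = -(a • x₀) := eq_neg_of_add_eq_zero_right hab
        have h2 : x₁ = b⁻¹ • (b • x₁) := by rw [smul_smul, inv_mul_cancel₀ hb, one_smul]
        rw [h2, h1, smul_neg, smul_smul, neg_smul]
      rw [this]
      exact Submodule.smul_mem _ _ (Submodule.mem_span_singleton_self x₀)
    rw [hb, zero_smul, add_zero] at hab
    exact ⟨(smul_eq_zero.mp hab).resolve_right hx₀, hb⟩
  have hshape : ∀ σ ∈ I, ∀ x, ∃ m : k, ρ σ x = x + m • x₀ := by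
    intro σ hσ x
    obtain ⟨m, hm⟩ := Submodule.mem_span_singleton.mp (hle (hI σ hσ x))
    exact ⟨m, by rw [hm]; abel⟩
  refine ⟨x₀, x₁, hind, fun σ hσ => ?_, fun σ hσ => hshape σ hσ x₁⟩
  obtain ⟨c', hc'⟩ := hshape σ hσ x₀
  obtain ⟨m, hm⟩ := hshape σ hσ x₁
  set c : k := 1 + c' with hc
  have hc0 : ρ σ x₀ = c • x₀ := by rw [hc', hc, add_smul, one_smul]
  -- the quadratic relation on `x₁`
  have q1 := hq.apply σ x₁
  rw [hm, map_add, map_smul, hm, hc0] at q1
  have q1' : (m * (1 + c - t σ)) • x₀ + (1 - t σ + (ω σ : k)) • x₁ = 0 := by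
    rw [← q1]
    simp only [mul_add, mul_sub, add_smul, sub_smul, smul_add, smul_smul, mul_one, one_smul]
    rw [mul_comm (t σ) m]
    abel
  obtain ⟨e1, e2⟩ := hind _ _ q1'
  -- the quadratic relation on `x₀`
  have q0 := hq.apply σ x₀
  rw [hc0, map_smul, hc0] at q0
  have q0' : (c * c - t σ * c + (ω σ : k)) • x₀ = 0 := by
    rw [← q0]
    simp only [add_smul, sub_smul, smul_smul]
  have e3 := (smul_eq_zero.mp q0').resolve_right hx₀
  have ht : t σ = 1 + (ω σ : k) := by linear_combination -e2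
  rw [hc0]
  congr 1
  by_contra hne
  have hne' : c - (ω σ : k) ≠ 0 := sub_ne_zero.mpr hne
  have hc1 : c = 1 := by
    have : (c - 1) * (c - (ω σ : k)) = 0 := by
      rw [ht] at e3
      linear_combination e3
    exact sub_eq_zero.mp ((mul_eq_zero.mp this).resolve_right hne')
  have hm0 : m = 0 := by
    have : m * (c - (ω σ : k)) = 0 := by
      rw [ht] at e1
      linear_combination e1
    exact (mul_eq_zero.mp this).resolve_right hne'
  -- `ρ σ = 1`
  have hone : ρ σ = 1 := by
    set U : Submodule k E := LinearMap.ker (ρ σ - 1) with hU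
    have hx₀U : x₀ ∈ U := by
      rw [hU, LinearMap.mem_ker, LinearMap.sub_apply, hc0, hc1, one_smul]
      simp
    have hx₁U : x₁ ∈ U := by
      rw [hU, LinearMap.mem_ker, LinearMap.sub_apply, hm, hm0, zero_smul, add_zero]
      simp
    have hlt : Submodule.span k {x₀} < U :=
      lt_of_le_of_ne ((Submodule.span_singleton_le_iff_mem _ _).mpr hx₀U)
        (fun heq => hx₁ (heq ▸ hx₁U))
    have h2 := Submodule.finrank_lt_finrank_of_lt hlt
    have h3 : U = ⊤ := Submodule.eq_top_of_finrank_eq (by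
      have := Submodule.finrank_le U
      omega)
    ext x
    have hx : x ∈ U := h3 ▸ Submodule.mem_top
    rw [hU, LinearMap.mem_ker, LinearMap.sub_apply] at hx
    exact sub_eq_zero.mp hx
  have hω := Basis.omega_eq_one_of_eq_one' hq hh hone
  apply hne
  rw [hc1, hω, Units.val_one]

end Fermat.Agent.S44.V.Abs
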