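/-
S44, block V, abstract part, task A3 (helper3): `exists_equivariant_injection`.

Derived directly from `Fermat.Agent.S44.V.BLR.exists_embedding` (`S44/V/Embed/BLR.lean`): the
involution `c` acts on `E` as a non scalar involution, hence has the two eigenvalues `1 ≠ -1`.
(The leaves `span_range_eq_top` and `kernel` of the skeleton are not needed.)
-/
import Fermat.Agent.S44.V.Abs.Defs
import Fermat.Agent.S44.V.Embed.BLR

set_option autoImplicit false

namespace Fermat.Agent.S44.V.Abs

variable {k : Type*} [Field k] {G : Type*} [Group G] {E : Type*} [AddCommGroup E] [Module k E]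
  {V : Type*} [AddCommGroup V] [Module k V]

/-- an irreducible representation of dimension two contains a non scalar operator -/
theorem Embed.exists_nonscalar' (hE : Module.finrank k E = 2) {ρ : G →* Module.End k E}
    (hirr : Irr ρ) : ∃ h : G, ∀ a : k, ρ h ≠ a • (1 : Module.End k E) := by
  by_contra hcon
  push Not at hcon
  have : Nontrivial E := Module.nontrivial_of_finrank_pos (R := k) (by omega)
  obtain ⟨x, hx⟩ := exists_ne (0 : E)
  have hinv : ∀ g, ∀ y ∈ Submodule.span k {x}, ρ g y ∈ Submodule.span k {x} := by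
    intro g y hy
    obtain ⟨a, ha⟩ := hcon g
    rw [ha]
    simpa using Submodule.smul_mem _ a hy
  rcases hirr _ hinv with h | h
  · exact hx ((Submodule.span_singleton_eq_bot).1 h)
  · have h1 : Module.finrank k (Submodule.span k {x}) = 1 := finrank_span_singleton hx
    rw [h, finrank_top, hE] at h1
    omega

/-- an involution with `ω c = -1` is not scalar -/
theorem Embed.involution_nonscalar' (h2 : (2 : k) ≠ 0) {ρ : G →* Module.End k E} {ω : G →* kˣ}
    {t : G → k} (hq : Quad ρ ω t) {h : G} (hh : ∀ a : k, ρ h ≠ a • (1 : Module.End k E)) {c : G}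
    (hc : c * c = 1) (hωc : (ω c : k) = -1) : ∀ a : k, ρ c ≠ a • (1 : Module.End k E) := by
  intro a ha
  have hnt : (1 : Module.End k E) ≠ 0 := by
    intro h10
    refine hh 0 ?_
    rw [zero_smul, ← mul_one (ρ h), h10, mul_zero]
  have hinj : ∀ z : k, z • (1 : Module.End k E) = 0 → z = 0 := by
    intro z hz
    rcases smul_eq_zero.1 hz with h | h
    · exact h
    · exact absurd h hnt
  have haa : a * a = 1 := by
    have h3 : ρ c * ρ c = 1 := by rw [← map_mul, hc, map_one]
    rw [ha] at h3
    have h4 : (a * a - 1) • (1 : Module.End k E) = 0 := by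
      rw [smul_mul_smul_comm, one_mul] at h3
      rw [sub_smul, one_smul, h3, sub_self]
    exact sub_eq_zero.1 (hinj _ h4)
  have h1 := hq (c * h)
  have h0 := hq h
  rw [map_mul, map_mul, ha] at h1
  simp only [Units.val_mul, hωc] at h1
  have h5 : (t h - a * t (c * h)) • ρ h = (2 * (ω h : k)) • (1 : Module.End k E) := by
    have h6 : a • (1 : Module.End k E) * ρ h * (a • (1 : Module.End k E) * ρ h)
        = (a * a) • (ρ h * ρ h) := by
      simp only [smul_mul_assoc, one_mul, mul_smul_comm, smul_smul]
    rw [h6, haa] at h1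
    simp only [smul_mul_assoc, one_mul] at h1
    linear_combination (norm := module) h1 - h0
  by_cases hs : t h - a * t (c * h) = 0
  · rw [hs, zero_smul] at h5
    have := hinj _ h5.symm
    rcases mul_eq_zero.1 this with h' | h'
    · exact h2 h'
    · exact (ω h).ne_zero h'
  · refine hh ((t h - a * t (c * h))⁻¹ * (2 * (ω h : k))) ?_
    rw [mul_smul, ← h5, smul_smul, inv_mul_cancel₀ hs, one_smul]

theorem exists_equivariant_injection (h2 : (2 : k) ≠ 0) (hE : Module.finrank k E = 2)
    [Nontrivial V] (ρE : G →* Module.End k E) (ρV : G →* Module.End k V) (ω : G →* kˣ)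
    (t : G → k) (hqE : Quad ρE ω t) (hqV : Quad ρV ω t) (hirr : Irr ρE) (c : G) (hc : c * c = 1)
    (hωc : (ω c : k) = -1) :
    ∃ ι : E →ₗ[k] V, Function.Injective ι ∧ ∀ g x, ι (ρE g x) = ρV g (ι x) := by
  obtain ⟨h, hh⟩ := Embed.exists_nonscalar' hE hirr
  have hns := Embed.involution_nonscalar' h2 hqE hh hc hωc
  have hCC : ∀ x, ρE c (ρE c x) = x := by
    intro x
    rw [← Module.End.mul_apply, ← map_mul, hc, map_one, Module.End.one_apply]
  have h1 : ∃ x, ρE c x + x ≠ 0 := by
    by_contra hcon
    push Not at hcon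
    refine hns (-1) ?_
    ext x
    have := hcon x
    simp only [neg_smul, one_smul]
    exact eq_neg_of_add_eq_zero_left this
  have h1' : ∃ x, ρE c x - x ≠ 0 := by
    by_contra hcon
    push Not at hcon
    refine hns 1 ?_
    ext x
    have := hcon x
    simp only [one_smul]
    exact sub_eq_zero.1 this
  obtain ⟨x, hx⟩ := h1
  obtain ⟨y, hy⟩ := h1'
  refine BLR.exists_embedding ρE ρV ω t hqE hqV hirr c 1 (-1) ?_ (ρE c x + x) (ρE c y - y) hx hy
    ?_ ?_
  · intro h
    apply h2
    linear_combination h
  · rw [map_add, hCC, one_smul, add_comm]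
  · rw [map_sub, hCC, neg_smul, one_smul, neg_sub]

end Fermat.Agent.S44.V.Abs
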