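/-
S44, block V (architect helper104), abstract part, task A3 (core, independent of A1 and A2): a
nonzero representation `V` satisfying the same quadratic relations as the irreducible two
dimensional representation `E` contains `E`.

`V` is a module over `End E` (`Embed_exists_theta`), and a nonzero module over `End E` contains `E`
(`Embed_exists_of_theta`).
-/
import Fermat.Agent.S44.V.Abs.Defs
import Fermat.Agent.Lib.QuadraticRep

set_option autoImplicit false

namespace Fermat.Agent.S44.V.Abs

open Fermat.Agent.Lib.QuadraticRep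

variable {k : Type*} [Field k] {G : Type*} [Group G] {E : Type*} [AddCommGroup E] [Module k E]
  {V : Type*} [AddCommGroup V] [Module k V]

/-- the linear span of the image of a monoid homomorphism is a subalgebra. -/
theorem Embed_toSubmodule_adjoin {B : Type*} [Ring B] [Algebra k B] (ρ : G →* B) :
    Subalgebra.toSubmodule (Algebra.adjoin k (Set.range ρ)) = Submodule.span k (Set.range ρ) := by
  rw [Algebra.adjoin_eq_span, ← MonoidHom.coe_mrange, Submonoid.closure_eq]

theorem Embed_map_fst_pairSpan {B : Type*} [Ring B] [Algebra k B] (ρ : G →* B) (t : G → k) :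
    Submodule.map (LinearMap.fst k B k) (pairSpan ρ t) = Submodule.span k (Set.range ρ) := by
  rw [pairSpan, Submodule.map_span, ← Set.range_comp]
  rfl

theorem Embed_map_fst_span (ρE : G →* Module.End k E) (ρV : G →* Module.End k V) :
    Submodule.map (LinearMap.fst k (Module.End k E) (Module.End k V))
      (Submodule.span k (Set.range (ρE.prod ρV))) = Submodule.span k (Set.range ρE) := by
  rw [Submodule.map_span, ← Set.range_comp]
  rfl

/-- `V` is a module over `End E`, compatibly with the actions of `G`. -/
theorem Embed_exists_theta (ρE : G →* Module.End k E) (ρV : G →* Module.End k V) (t : G → k)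
    (hker : ∀ p ∈ pairSpan (ρE.prod ρV) t, p.1.1 = 0 → p.1.2 = 0)
    (hspan : Submodule.span k (Set.range ρE) = ⊤) :
    ∃ θ : Module.End k E →ₐ[k] Module.End k V, ∀ g, θ (ρE g) = ρV g := by
  set W : Subalgebra k (Module.End k E × Module.End k V) :=
    Algebra.adjoin k (Set.range (ρE.prod ρV)) with hW
  have hWmem : ∀ z, z ∈ W ↔ z ∈ Submodule.span k (Set.range (ρE.prod ρV)) := by
    intro z
    rw [← Embed_toSubmodule_adjoin, Subalgebra.mem_toSubmodule]
  set π₁ : W →ₐ[k] Module.End k E := (AlgHom.fst k _ _).comp W.val with hπ₁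
  set π₂ : W →ₐ[k] Module.End k V := (AlgHom.snd k _ _).comp W.val with hπ₂
  have hinj : Function.Injective π₁ := by
    rw [injective_iff_map_eq_zero]
    rintro ⟨z, hz⟩ h0
    have h0' : z.1 = 0 := h0
    rw [hWmem, ← Embed_map_fst_pairSpan (ρE.prod ρV) t] at hz
    obtain ⟨p, hp, rfl⟩ := hz
    apply Subtype.ext
    exact Prod.ext h0' (hker p hp h0')
  have hsurj : Function.Surjective π₁ := by
    intro f
    have hf : f ∈ Submodule.span k (Set.range ρE) := by rw [hspan]; trivial
    rw [← Embed_map_fst_span ρE ρV] at hf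
    obtain ⟨z, hz, rfl⟩ := hf
    exact ⟨⟨z, (hWmem z).2 hz⟩, rfl⟩
  refine ⟨π₂.comp (AlgEquiv.ofBijective π₁ ⟨hinj, hsurj⟩).symm.toAlgHom, fun g => ?_⟩
  have hz : (ρE.prod ρV) g ∈ W := Algebra.subset_adjoin ⟨g, rfl⟩
  have h1 : (AlgEquiv.ofBijective π₁ ⟨hinj, hsurj⟩).symm (ρE g) = ⟨(ρE.prod ρV) g, hz⟩ := by
    rw [AlgEquiv.symm_apply_eq]
    rfl
  show π₂ ((AlgEquiv.ofBijective π₁ ⟨hinj, hsurj⟩).symm (ρE g)) = ρV g
  rw [h1]
  rfl

/-- a nonzero module over `End E` contains `E`. -/
theorem Embed_exists_of_theta [FiniteDimensional k E] [Nontrivial E] [Nontrivial V]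
    (θ : Module.End k E →ₐ[k] Module.End k V) :
    ∃ ι : E →ₗ[k] V, Function.Injective ι ∧ ∀ (f : Module.End k E) (x : E), ι (f x) = θ f (ι x) := by
  have hdual : ∀ x : E, x ≠ 0 → ∃ f : Module.Dual k E, f x = 1 := by
    intro x hx
    obtain ⟨f, hf⟩ : ∃ f : Module.Dual k E, f x ≠ 0 := by
      by_contra hcon
      simp only [not_exists, not_not] at hcon
      exact hx ((Module.forall_dual_apply_eq_zero_iff k x).1 hcon)
    exact ⟨(f x)⁻¹ • f, by simp [hf]⟩
  obtain ⟨e₁, he₁⟩ := exists_ne (0 : E)
  obtain ⟨φ, hφ⟩ := hdual e₁ he₁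
  -- products of rank one maps
  have hmul : ∀ (f g : Module.Dual k E) (x y : E),
      (f.smulRight x : Module.End k E) * (g.smulRight y : Module.End k E)
        = f y • (g.smulRight x : Module.End k E) := by
    intro f g x y
    ext z
    simp [smul_smul, mul_comm]
  -- `θ P ≠ 0`
  have hP : θ (φ.smulRight e₁ : Module.End k E) ≠ 0 := by
    intro h0
    have h1 : ∀ (f : Module.Dual k E) (x : E), θ (f.smulRight x : Module.End k E) = 0 := by
      intro f x
      have : (f.smulRight x : Module.End k E) =
          (φ.smulRight x : Module.End k E) * (φ.smulRight e₁ : Module.End k E) *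
            (f.smulRight e₁ : Module.End k E) := by
        rw [hmul, hφ, one_smul, hmul, hφ, one_smul]
      rw [this, map_mul, map_mul, h0, mul_zero, zero_mul]
    have h2 : (1 : Module.End k E) =
        ∑ i, ((Module.finBasis k E).coord i).smulRight (Module.finBasis k E i) := by
      ext x
      simp [(Module.finBasis k E).sum_repr x]
    have h3 : (1 : Module.End k V) = 0 := by
      rw [← map_one θ, h2, map_sum]
      exact Finset.sum_eq_zero fun i _ => h1 _ _
    exact one_ne_zero h3
  obtain ⟨v, hv⟩ : ∃ v, θ (φ.smulRight e₁ : Module.End k E) v ≠ 0 := by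
    by_contra hcon
    simp only [not_exists, not_not] at hcon
    exact hP (LinearMap.ext hcon)
  set w := θ (φ.smulRight e₁ : Module.End k E) v with hw
  have hPw : θ (φ.smulRight e₁ : Module.End k E) w = w := by
    rw [hw, ← Module.End.mul_apply, ← map_mul, hmul, hφ, one_smul]
  refine ⟨{ toFun := fun x => θ (φ.smulRight x : Module.End k E) w
            map_add' := fun x y => ?_
            map_smul' := fun a x => ?_ }, ?_, ?_⟩
  · have : (φ.smulRight (x + y) : Module.End k E) = φ.smulRight x + φ.smulRight y := by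
      ext z
      simp
    rw [this, map_add, LinearMap.add_apply]
  · have : (φ.smulRight (a • x) : Module.End k E) = a • (φ.smulRight x : Module.End k E) := by
      ext z
      simp only [LinearMap.smulRight_apply, LinearMap.smul_apply]
      rw [smul_comm]
    rw [this, map_smul, LinearMap.smul_apply, RingHom.id_apply]
  · rw [injective_iff_map_eq_zero]
    intro x hx
    by_contra hx0
    obtain ⟨f, hf⟩ := hdual x hx0
    have hx' : θ (φ.smulRight x : Module.End k E) w = 0 := hx
    have h1 : θ (f.smulRight e₁ : Module.End k E) (θ (φ.smulRight x : Module.End k E) w) = w := by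
      rw [← Module.End.mul_apply, ← map_mul, hmul, hf, one_smul, hPw]
    rw [hx', map_zero] at h1
    exact hv h1.symm
  · intro f x
    show θ (φ.smulRight (f x) : Module.End k E) w = θ f (θ (φ.smulRight x : Module.End k E) w)
    have : (φ.smulRight (f x) : Module.End k E) = f * (φ.smulRight x : Module.End k E) := by
      ext z
      simp
    rw [this, map_mul, Module.End.mul_apply]

/-- the conclusion of A3 from the conclusions of A1 (`hspan`) and A2 (`hker`). -/
theorem exists_equivariant_injection_of (hE : 0 < Module.finrank k E)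
    [Nontrivial V] (ρE : G →* Module.End k E) (ρV : G →* Module.End k V) (t : G → k)
    (hker : ∀ p ∈ pairSpan (ρE.prod ρV) t, p.1.1 = 0 → p.1.2 = 0)
    (hspan : Submodule.span k (Set.range ρE) = ⊤) :
    ∃ ι : E →ₗ[k] V, Function.Injective ι ∧ ∀ g x, ι (ρE g x) = ρV g (ι x) := by
  have : FiniteDimensional k E := Module.finite_of_finrank_pos hE
  have : Nontrivial E := Module.nontrivial_of_finrank_pos (R := k) hE
  obtain ⟨θ, hθ⟩ := Embed_exists_theta ρE ρV t hker hspan
  obtain ⟨ι, hι, hιθ⟩ := Embed_exists_of_theta θ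
  exact ⟨ι, hι, fun g x => by rw [hιθ, hθ]⟩

end Fermat.Agent.S44.V.Abs
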