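/-
S44, block V, abstract part A2: the kernel lemma (Boston-Lenstra-Ribet).

If `E` is two dimensional, the `ρE g` span `End E`, and `ρE`, `ρV` satisfy the same quadratic
relations, then a linear combination of the `(ρE g, ρV g, t g)` whose `E`-component vanishes has
vanishing `V`-component.
-/
import Mathlib
import Fermat.Agent.S44.V.Abs.Defs
import Fermat.Agent.Lib.QuadraticRep

set_option autoImplicit false

namespace Fermat.Agent.S44.V.Abs

open Fermat.Agent.Lib.QuadraticRep

variable {k : Type*} [Field k] {G : Type*} [Group G] {E : Type*} [AddCommGroup E] [Module k E]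
  {V : Type*} [AddCommGroup V] [Module k V]

private theorem kernel_rel {ρE : G →* Module.End k E} {ρV : G →* Module.End k V} {ω : G →* kˣ}
    {t : G → k} (hqE : Quad ρE ω t) (hqV : Quad ρV ω t) (g : G) :
    (ρE.prod ρV) g * (ρE.prod ρV) g - t g • (ρE.prod ρV) g
      + (ω g : k) • (1 : Module.End k E × Module.End k V) = 0 := by
  apply Prod.ext
  · simpa using hqE g
  · simpa using hqV g

private theorem kernel_mul {R : Type*} [Ring R] [Algebra k R] {ρ : G →* R} {t : G → k}
    {p q : R × k} (hp : p ∈ pairSpan ρ t) (hq : q ∈ pairSpan ρ t) :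
    ∃ w ∈ pairSpan ρ t, w.1 = p.1 * q.1 := by
  induction hp using Submodule.span_induction with
  | mem p hp =>
    obtain ⟨g, rfl⟩ := hp
    induction hq using Submodule.span_induction with
    | mem q hq =>
      obtain ⟨g', rfl⟩ := hq
      exact ⟨(ρ (g * g'), t (g * g')), Submodule.subset_span ⟨_, rfl⟩, by simp⟩
    | zero => exact ⟨0, zero_mem _, by simp⟩
    | add q q' _ _ hq hq' =>
      obtain ⟨w, hw, e⟩ := hq
      obtain ⟨w', hw', e'⟩ := hq'
      exact ⟨w + w', add_mem hw hw', by simp [e, e', mul_add]⟩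
    | smul a q _ hq =>
      obtain ⟨w, hw, e⟩ := hq
      exact ⟨a • w, Submodule.smul_mem _ _ hw, by simp [e]⟩
  | zero => exact ⟨0, zero_mem _, by simp⟩
  | add p p' _ _ hp hp' =>
    obtain ⟨w, hw, e⟩ := hp
    obtain ⟨w', hw', e'⟩ := hp'
    exact ⟨w + w', add_mem hw hw', by simp [e, e', add_mul]⟩
  | smul a p _ hp =>
    obtain ⟨w, hw, e⟩ := hp
    exact ⟨a • w, Submodule.smul_mem _ _ hw, by simp [e]⟩

private theorem kernel_comm {R : Type*} [Ring R] [Algebra k R] {ρ : G →* R} {t : G → k}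
    {p q : R × k} (hp : p ∈ pairSpan ρ t) (hq : q ∈ pairSpan ρ t) :
    ∃ w ∈ pairSpan ρ t, w.1 = p.1 * q.1 - q.1 * p.1 := by
  obtain ⟨w, hw, e⟩ := kernel_mul hp hq
  obtain ⟨w', hw', e'⟩ := kernel_mul hq hp
  exact ⟨w - w', sub_mem hw hw', by simp [e, e']⟩

private theorem kernel_lift {ρE : G →* Module.End k E} (ρV : G →* Module.End k V) (t : G → k)
    (hspan : Submodule.span k (Set.range ρE) = ⊤) (f : Module.End k E) :
    ∃ p ∈ pairSpan (ρE.prod ρV) t, p.1.1 = f := by
  have hf : f ∈ Submodule.span k (Set.range ρE) := hspan ▸ Submodule.mem_top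
  induction hf using Submodule.span_induction with
  | mem f hf =>
    obtain ⟨g, rfl⟩ := hf
    exact ⟨((ρE.prod ρV) g, t g), Submodule.subset_span ⟨g, rfl⟩, rfl⟩
  | zero => exact ⟨0, zero_mem _, rfl⟩
  | add f f' _ _ hf hf' =>
    obtain ⟨w, hw, e⟩ := hf
    obtain ⟨w', hw', e'⟩ := hf'
    exact ⟨w + w', add_mem hw hw', by simp [e, e']⟩
  | smul a f _ hf =>
    obtain ⟨w, hw, e⟩ := hf
    exact ⟨a • w, Submodule.smul_mem _ _ hw, by simp [e]⟩

/-- (K3), abstract form. -/
private theorem kernel_K3 {R : Type*} [Ring R] [Algebra k R] (x y z : R) (y2 z2 w2 c : k)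
    (hy : x * y + y * x = y2 • x) (hz : x * z + z * x = z2 • x)
    (hw : x * (y * z) + (y * z) * x = w2 • x)
    (hyz : y * z + z * y - z2 • y - y2 • z = c • 1) :
    (y * z - z * y) * x = (w2 - y2 * z2 - c) • x := by
  have e1 : x * y = y2 • x - y * x := eq_sub_of_add_eq hy
  have e2 : x * z = z2 • x - z * x := eq_sub_of_add_eq hz
  have e3 : x * (y * z) = (y2 * z2) • x - y2 • (z * x) - z2 • (y * x) + y * (z * x) := by
    rw [← mul_assoc, e1, sub_mul, smul_mul_assoc, mul_assoc, e2, mul_sub, smul_sub,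
      mul_smul_comm, smul_smul]
    abel
  have e4 := congrArg (· * x) hyz
  simp only [sub_mul, add_mul, smul_mul_assoc, one_mul, mul_assoc] at e4
  have hw' : x * (y * z) + y * (z * x) = w2 • x := by rw [← mul_assoc y z x]; exact hw
  rw [sub_mul, mul_assoc, mul_assoc]
  linear_combination (norm := module) hw' - e3 - e4

theorem kernel (h2 : (2 : k) ≠ 0) (hE : Module.finrank k E = 2) {ρE : G →* Module.End k E}
    {ρV : G →* Module.End k V} {ω : G →* kˣ} {t : G → k} (hqE : Quad ρE ω t) (hqV : Quad ρV ω t)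
    (hspan : Submodule.span k (Set.range ρE) = ⊤)
    {p : (Module.End k E × Module.End k V) × k}
    (hp : p ∈ Fermat.Agent.Lib.QuadraticRep.pairSpan (ρE.prod ρV) t) (h0 : p.1.1 = 0) :
    p.1.2 = 0 := by
  classical
  have hrel := kernel_rel hqE hqV
  have : Nontrivial E := Module.nontrivial_of_finrank_pos (R := k) (by omega)
  have : Module.Finite k E := Module.finite_of_finrank_pos (by omega)
  have one_ne : (1 : Module.End k E) ≠ 0 := one_ne_zero
  -- (P0) in components
  have P0 : ∀ {a b : (Module.End k E × Module.End k V) × k},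
      a ∈ pairSpan (ρE.prod ρV) t → b ∈ pairSpan (ρE.prod ρV) t → ∃ c : k,
      (a.1.1 * b.1.1 + b.1.1 * a.1.1 - b.2 • a.1.1 - a.2 • b.1.1 = c • 1) ∧
      (a.1.2 * b.1.2 + b.1.2 * a.1.2 - b.2 • a.1.2 - a.2 • b.1.2 = c • 1) := by
    intro a b ha hb
    obtain ⟨c, hc⟩ := anticomm hrel ha hb
    exact ⟨c, by simpa using congrArg Prod.fst hc, by simpa using congrArg Prod.snd hc⟩
  -- the matrix units
  let b := Module.finBasisOfFinrankEq k E hE
  let φ : Module.End k E ≃ₐ[k] Matrix (Fin 2) (Fin 2) k := algEquivMatrix b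
  obtain ⟨p11, hp11, e11⟩ := kernel_lift ρV t hspan (φ.symm !![1, 0; 0, 0])
  obtain ⟨p12, hp12, e12⟩ := kernel_lift ρV t hspan (φ.symm !![0, 1; 0, 0])
  obtain ⟨p21, hp21, e21⟩ := kernel_lift ρV t hspan (φ.symm !![0, 0; 1, 0])
  obtain ⟨e', he', ee'⟩ := kernel_comm hp11 hp12
  obtain ⟨f', hf', ef'⟩ := kernel_comm hp21 hp11
  obtain ⟨d, hd, ed⟩ := kernel_comm he' hf'
  have hdE : d.1.1 = φ.symm !![1, 0; 0, -1] := by
    have h1 : d.1.1 = e'.1.1 * f'.1.1 - f'.1.1 * e'.1.1 := by simpa using congrArg Prod.fst ed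
    have h3 : e'.1.1 = p11.1.1 * p12.1.1 - p12.1.1 * p11.1.1 := by
      simpa using congrArg Prod.fst ee'
    have h4 : f'.1.1 = p21.1.1 * p11.1.1 - p11.1.1 * p21.1.1 := by
      simpa using congrArg Prod.fst ef'
    rw [h1, h3, h4, e11, e12, e21]
    simp only [← map_mul, ← map_sub]
    congr 1
    ext i j
    fin_cases i <;> fin_cases j <;> simp
  have hdsq : d.1.1 * d.1.1 = 1 := by
    rw [hdE, ← map_mul]
    have : (!![1, 0; 0, -1] : Matrix (Fin 2) (Fin 2) k) * !![1, 0; 0, -1] = 1 := by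
      ext i j
      fin_cases i <;> fin_cases j <;> simp [Matrix.mul_apply, Fin.sum_univ_two]
    rw [this, map_one]
  have hdns : ∀ a : k, d.1.1 ≠ a • (1 : Module.End k E) := by
    intro a ha
    rw [hdE] at ha
    have h5 := congrArg φ ha
    rw [AlgEquiv.apply_symm_apply, map_smul, map_one] at h5
    have h00 := congrFun (congrFun h5 0) 0
    have h11 := congrFun (congrFun h5 1) 1
    simp at h00 h11
    apply h2
    linear_combination h00 - h11
  -- (K1)
  have K1 : p.2 = 0 ∧ ∀ q ∈ pairSpan (ρE.prod ρV) t,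
      p.1.2 * q.1.2 + q.1.2 * p.1.2 = q.2 • p.1.2 := by
    have hx2 : p.2 = 0 := by
      obtain ⟨c, hc, -⟩ := P0 hp hd
      rw [h0] at hc
      simp only [zero_mul, mul_zero, smul_zero, add_zero, sub_zero, zero_sub] at hc
      by_contra hne
      apply hdns (-(p.2)⁻¹ * c)
      have : d.1.1 = (p.2)⁻¹ • (p.2 • d.1.1) := by rw [smul_smul, inv_mul_cancel₀ hne, one_smul]
      rw [this, ← neg_eq_iff_eq_neg.mpr hc.symm, smul_neg, smul_smul, neg_mul, neg_smul]
    refine ⟨hx2, fun q hq => ?_⟩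
    obtain ⟨c, hc, hcV⟩ := P0 hp hq
    rw [h0, hx2] at hc
    simp only [zero_mul, mul_zero, smul_zero, add_zero, sub_zero, zero_smul] at hc
    have hc0 : c = 0 := by
      rcases smul_eq_zero.mp hc.symm with h | h
      · exact h
      · exact absurd h one_ne
    rw [hc0, hx2, zero_smul, zero_smul, sub_zero, sub_eq_zero] at hcV
    exact hcV
  -- (K2)
  have K2 : d.1.2 * d.1.2 = 1 := by
    obtain ⟨c, hc, hcV⟩ := P0 hd hd
    rw [hdsq] at hc
    have hd2 : d.2 = 0 := by
      by_contra hne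
      apply hdns ((2 * d.2)⁻¹ * (2 - c))
      have h6 : (2 * d.2) • d.1.1 = (2 - c) • (1 : Module.End k E) := by
        linear_combination (norm := module) -hc
      have h7 : (2 * d.2) ≠ 0 := mul_ne_zero h2 hne
      rw [mul_smul, ← h6, smul_smul, inv_mul_cancel₀ h7, one_smul]
    rw [hd2] at hc hcV
    have hc2 : c = 2 := by
      have h8 : (2 - c) • (1 : Module.End k E) = 0 := by
        linear_combination (norm := module) hc
      rcases smul_eq_zero.mp h8 with h | h
      · linear_combination -h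
      · exact absurd h one_ne
    rw [hc2] at hcV
    have h9 : (2 : k) • (d.1.2 * d.1.2) = (2 : k) • (1 : Module.End k V) := by
      linear_combination (norm := module) hcV
    exact smul_right_injective _ h2 h9
  -- (K3)
  have K3 : ∀ {y z : (Module.End k E × Module.End k V) × k},
      y ∈ pairSpan (ρE.prod ρV) t → z ∈ pairSpan (ρE.prod ρV) t →
      ∃ lam : k, (y.1.2 * z.1.2 - z.1.2 * y.1.2) * p.1.2 = lam • p.1.2 := by
    intro y z hy hz
    obtain ⟨w, hw, ew⟩ := kernel_mul hy hz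
    obtain ⟨c, -, hcV⟩ := P0 hy hz
    have hwV : w.1.2 = y.1.2 * z.1.2 := by simpa using congrArg Prod.snd ew
    have h10 := K1.2 w hw
    rw [hwV] at h10
    exact ⟨_, kernel_K3 p.1.2 y.1.2 z.1.2 y.2 z.2 w.2 c (K1.2 y hy) (K1.2 z hz) h10 hcV⟩
  obtain ⟨le, hle⟩ := K3 hp11 hp12
  obtain ⟨lf, hlf⟩ := K3 hp21 hp11
  have heV : e'.1.2 = p11.1.2 * p12.1.2 - p12.1.2 * p11.1.2 := by
    simpa using congrArg Prod.snd ee'
  have hfV : f'.1.2 = p21.1.2 * p11.1.2 - p11.1.2 * p21.1.2 := by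
    simpa using congrArg Prod.snd ef'
  have hdV : d.1.2 = e'.1.2 * f'.1.2 - f'.1.2 * e'.1.2 := by simpa using congrArg Prod.snd ed
  rw [← heV] at hle
  rw [← hfV] at hlf
  have hdx : d.1.2 * p.1.2 = 0 := by
    rw [hdV, sub_mul, mul_assoc, mul_assoc, hle, hlf, mul_smul_comm, mul_smul_comm, hle, hlf,
      smul_smul, smul_smul, mul_comm, sub_self]
  calc p.1.2 = (d.1.2 * d.1.2) * p.1.2 := by rw [K2, one_mul]
    _ = 0 := by rw [mul_assoc, hdx, mul_zero]

end Fermat.Agent.S44.V.Abs
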