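/-
S44, block V (owner helper104), abstract part (Mathlib only), section A1 (task S44-V-A1, helper99).

* `exists_nonscalar`        : an irreducible two dimensional representation has a non scalar element;
* `omega_eq_one_of_eq_one`  : the kernel of `ρ` lies in the kernel of `ω`;
* `involution_nonscalar`    : an involution with `ω c = -1` is not scalar;
* `span_range_eq_top`       : the image of `ρ` spans `End E`.
-/
import Mathlib
import Fermat.Agent.S44.V.Abs.Defs

set_option autoImplicit false

namespace Fermat.Agent.S44.V.Abs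

variable {k : Type*} [Field k] {G : Type*} [Group G] {E : Type*} [AddCommGroup E] [Module k E]

theorem exists_nonscalar (hE : Module.finrank k E = 2) {ρ : G →* Module.End k E} (hirr : Irr ρ) :
    ∃ h : G, ∀ a : k, ρ h ≠ a • (1 : Module.End k E) := by
  by_contra hcon
  push Not at hcon
  have hnt : Nontrivial E := Module.nontrivial_of_finrank_pos (R := k) (by omega)
  obtain ⟨x, hx⟩ := exists_ne (0 : E)
  have hinv : ∀ g, ∀ y ∈ Submodule.span k {x}, ρ g y ∈ Submodule.span k {x} := by
    intro g y hy
    obtain ⟨a, ha⟩ := hcon g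
    rw [ha]
    simpa using Submodule.smul_mem _ a hy
  rcases hirr _ hinv with h | h
  · exact hx ((Submodule.span_singleton_eq_bot).1 h)
  · have h1 : Module.finrank k (Submodule.span k {x}) = 1 := finrank_span_singleton hx
    rw [h, finrank_top, hE] at h1
    omega

/-- `End E` is nontrivial as soon as it contains a non scalar element. -/
theorem span_one_ne_zero {f : Module.End k E} (hh : ∀ a : k, f ≠ a • (1 : Module.End k E)) :
    (1 : Module.End k E) ≠ 0 := by
  intro h
  apply hh 0
  rw [zero_smul, ← mul_one f, h, mul_zero]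

/-- a non scalar endomorphism is linearly independent of `1`. -/
theorem span_coeff_eq_zero {f : Module.End k E} (hh : ∀ a : k, f ≠ a • (1 : Module.End k E))
    {a b : k} (h : a • f + b • (1 : Module.End k E) = 0) : a = 0 ∧ b = 0 := by
  have ha : a = 0 := by
    by_contra ha
    apply hh (-(a⁻¹ * b))
    have h1 : a • f = -(b • (1 : Module.End k E)) := eq_neg_of_add_eq_zero_left h
    calc f = a⁻¹ • (a • f) := by rw [smul_smul, inv_mul_cancel₀ ha, one_smul]
      _ = -(a⁻¹ * b) • (1 : Module.End k E) := by rw [h1, smul_neg, smul_smul, neg_smul]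
  refine ⟨ha, ?_⟩
  rw [ha, zero_smul, zero_add] at h
  rcases smul_eq_zero.1 h with h | h
  · exact h
  · exact absurd h (span_one_ne_zero hh)

theorem omega_eq_one_of_eq_one {ρ : G →* Module.End k E} {ω : G →* kˣ} {t : G → k}
    (hq : Quad ρ ω t) {h : G} (hh : ∀ a : k, ρ h ≠ a • (1 : Module.End k E)) {σ : G}
    (hσ : ρ σ = 1) : ω σ = 1 := by
  have h1 := hq (σ * h)
  have h2 := hq h
  rw [map_mul, hσ, one_mul, map_mul] at h1
  have h3 : (t h - t (σ * h)) • ρ h + ((ω σ : k) * (ω h : k) - (ω h : k)) • (1 : Module.End k E)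
      = 0 := by
    have : (t h - t (σ * h)) • ρ h + ((ω σ : k) * (ω h : k) - (ω h : k)) • (1 : Module.End k E)
        = (ρ h * ρ h - t (σ * h) • ρ h + ((ω σ * ω h : kˣ) : k) • (1 : Module.End k E))
          - (ρ h * ρ h - t h • ρ h + (ω h : k) • (1 : Module.End k E)) := by
      rw [Units.val_mul, sub_smul, sub_smul]
      abel
    rw [this, h1, h2, sub_zero]
  have h4 := (span_coeff_eq_zero hh h3).2
  have h5 : ((ω σ : k) - 1) * (ω h : k) = 0 := by rw [sub_mul, one_mul, h4]
  rcases mul_eq_zero.1 h5 with h6 | h6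
  · exact Units.ext (by simpa using sub_eq_zero.1 h6)
  · exact absurd h6 (ω h).ne_zero

theorem involution_nonscalar (h2 : (2 : k) ≠ 0) {ρ : G →* Module.End k E} {ω : G →* kˣ}
    {t : G → k} (hq : Quad ρ ω t) {h : G} (hh : ∀ a : k, ρ h ≠ a • (1 : Module.End k E)) {c : G}
    (hc : c * c = 1) (hωc : (ω c : k) = -1) : ∀ a : k, ρ c ≠ a • (1 : Module.End k E) := by
  intro a ha
  have h10 := span_one_ne_zero hh
  have haa : a * a = 1 := by
    have h1 : ρ c * ρ c = 1 := by rw [← map_mul, hc, map_one]
    rw [ha, smul_mul_smul_comm, one_mul] at h1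
    have h3 : (a * a - 1) • (1 : Module.End k E) = 0 := by rw [sub_smul, h1, one_smul, sub_self]
    rcases smul_eq_zero.1 h3 with h4 | h4
    · exact sub_eq_zero.1 h4
    · exact absurd h4 h10
  have h1 := hq (c * h)
  have h3 := hq h
  rw [map_mul, ha, map_mul, Units.val_mul, hωc, smul_mul_assoc, one_mul, smul_mul_smul_comm, haa,
    one_smul, smul_smul] at h1
  have h4 : (t h - t (c * h) * a) • ρ h + (-(2 * (ω h : k))) • (1 : Module.End k E) = 0 := by
    have : (t h - t (c * h) * a) • ρ h + (-(2 * (ω h : k))) • (1 : Module.End k E)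
        = (ρ h * ρ h - (t (c * h) * a) • ρ h + (-1 * (ω h : k)) • (1 : Module.End k E))
          - (ρ h * ρ h - t h • ρ h + (ω h : k) • (1 : Module.End k E)) := by
      rw [sub_smul, neg_smul, two_mul, add_smul, neg_mul, one_mul, neg_smul]
      abel
    rw [this, h1, h3, sub_zero]
  have h5 := (span_coeff_eq_zero hh h4).2
  rcases mul_eq_zero.1 (neg_eq_zero.1 h5) with h6 | h6
  · exact h2 h6
  · exact (ω h).ne_zero h6

/-- the span of the image of a representation is the underlying module of a subalgebra. -/
theorem span_toSubmodule_adjoin (ρ : G →* Module.End k E) :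
    Subalgebra.toSubmodule (Algebra.adjoin k (Set.range ρ)) = Submodule.span k (Set.range ρ) := by
  rw [Algebra.adjoin_eq_span]
  congr 1
  have : Set.range ρ = ((MonoidHom.mrange ρ : Submonoid (Module.End k E)) : Set _) := by simp
  rw [this, Submonoid.closure_eq]

/-- transitivity of the algebra generated by an irreducible representation. -/
theorem span_exists_apply_eq {ρ : G →* Module.End k E} (hirr : Irr ρ) {x : E} (hx : x ≠ 0)
    (y : E) : ∃ a ∈ Algebra.adjoin k (Set.range ρ), a x = y := by
  set A := Algebra.adjoin k (Set.range ρ) with hA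
  let U : Submodule k E := (Subalgebra.toSubmodule A).map (LinearMap.applyₗ x)
  have hU : ∀ z, z ∈ U ↔ ∃ a ∈ A, a x = z := by
    intro z
    simp only [U, Submodule.mem_map, Subalgebra.mem_toSubmodule, LinearMap.applyₗ_apply_apply]
  have hinv : ∀ g, ∀ z ∈ U, ρ g z ∈ U := by
    intro g z hz
    obtain ⟨a, ha, rfl⟩ := (hU z).1 hz
    exact (hU _).2 ⟨ρ g * a, A.mul_mem (Algebra.subset_adjoin ⟨g, rfl⟩) ha, rfl⟩
  rcases hirr U hinv with h | h
  · have : x ∈ U := (hU x).2 ⟨1, A.one_mem, rfl⟩
    rw [h, Submodule.mem_bot] at this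
    exact absurd this hx
  · exact (hU y).1 (h ▸ Submodule.mem_top)

theorem span_range_eq_top (h2 : (2 : k) ≠ 0) (hE : Module.finrank k E = 2)
    {ρ : G →* Module.End k E} (hirr : Irr ρ) {c : G} (hc : c * c = 1)
    (hcs : ∀ a : k, ρ c ≠ a • (1 : Module.End k E)) :
    Submodule.span k (Set.range ρ) = ⊤ := by
  rw [← span_toSubmodule_adjoin, Algebra.toSubmodule_eq_top]
  set A := Algebra.adjoin k (Set.range ρ) with hA
  set C : Module.End k E := ρ c with hC
  have hCC : C * C = 1 := by rw [hC, ← map_mul, hc, map_one]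
  have hCA : C ∈ A := Algebra.subset_adjoin ⟨c, rfl⟩
  -- eigenvectors
  have hp : ∃ v : E, v + C v ≠ 0 := by
    by_contra hcon
    push Not at hcon
    apply hcs (-1)
    ext v
    simpa using eq_neg_of_add_eq_zero_right (hcon v)
  have hm : ∃ v : E, v - C v ≠ 0 := by
    by_contra hcon
    push Not at hcon
    apply hcs 1
    ext v
    simpa using (sub_eq_zero.1 (hcon v)).symm
  obtain ⟨v, hv⟩ := hp
  obtain ⟨w, hw⟩ := hm
  have hCCv : ∀ z : E, C (C z) = z := fun z => by
    have := congrArg (fun f : Module.End k E => f z) hCC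
    simpa using this
  set ep : E := v + C v with hep
  set em : E := w - C w with hem
  have hCp : C ep = ep := by rw [hep, map_add, hCCv, add_comm]
  have hCm : C em = -em := by rw [hem, map_sub, hCCv, neg_sub]
  -- they form a basis
  have hli : LinearIndependent k ![ep, em] := by
    rw [LinearIndependent.pair_iff]
    intro s t hst
    have h1 : s • ep - t • em = 0 := by
      have := congrArg C hst
      rw [map_add, map_smul, map_smul, hCp, hCm, map_zero, smul_neg] at this
      rwa [sub_eq_add_neg]
    have h3 : (2 * s) • ep = 0 := by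
      have : (2 * s) • ep = (s • ep + t • em) + (s • ep - t • em) := by
        rw [two_mul, add_smul]; abel
      rw [this, hst, h1, add_zero]
    have h4 : (2 * t) • em = 0 := by
      have : (2 * t) • em = (s • ep + t • em) - (s • ep - t • em) := by
        rw [two_mul, add_smul]; abel
      rw [this, hst, h1, sub_zero]
    constructor
    · rcases smul_eq_zero.1 h3 with h | h
      · exact (mul_eq_zero.1 h).resolve_left h2
      · exact absurd h hv
    · rcases smul_eq_zero.1 h4 with h | h
      · exact (mul_eq_zero.1 h).resolve_left h2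
      · exact absurd h hw
  have hspan : Submodule.span k (Set.range ![ep, em]) = ⊤ :=
    hli.span_eq_top_of_card_eq_finrank (by simp [hE])
  -- the projectors
  set πp : Module.End k E := (2 : k)⁻¹ • (1 + C) with hπp
  set πm : Module.End k E := (2 : k)⁻¹ • (1 - C) with hπm
  have hπpA : πp ∈ A := A.smul_mem (A.add_mem A.one_mem hCA) _
  have hπmA : πm ∈ A := A.smul_mem (A.sub_mem A.one_mem hCA) _
  have hpp : πp ep = ep := by
    simp only [hπp, LinearMap.smul_apply, LinearMap.add_apply, Module.End.one_apply, hCp]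
    rw [← two_smul k ep, smul_smul, inv_mul_cancel₀ h2, one_smul]
  have hpm : πp em = 0 := by
    simp only [hπp, LinearMap.smul_apply, LinearMap.add_apply, Module.End.one_apply, hCm]
    rw [add_neg_cancel, smul_zero]
  have hmp : πm ep = 0 := by
    simp only [hπm, LinearMap.smul_apply, LinearMap.sub_apply, Module.End.one_apply, hCp]
    rw [sub_self, smul_zero]
  have hmm : πm em = em := by
    simp only [hπm, LinearMap.smul_apply, LinearMap.sub_apply, Module.End.one_apply, hCm]
    rw [sub_neg_eq_add, ← two_smul k em, smul_smul, inv_mul_cancel₀ h2, one_smul]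
  rw [eq_top_iff]
  intro f _
  obtain ⟨a₁, ha₁, e₁⟩ := span_exists_apply_eq hirr hv (f ep)
  obtain ⟨a₂, ha₂, e₂⟩ := span_exists_apply_eq hirr hw (f em)
  have hf : f = a₁ * πp + a₂ * πm := by
    refine LinearMap.ext_on_range hspan fun i => ?_
    fin_cases i
    · simp [hpp, hmp, e₁]
    · simp [hpm, hmm, e₂]
  rw [hf]
  exact A.add_mem (A.mul_mem ha₁ hπpA) (A.mul_mem ha₂ hπmA)

end Fermat.Agent.S44.V.Abs
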